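/-
Fermat/Agent/MAZ/T1AX41/Flat.lean  (helper41; programme MAZ = S15, leaf `LeafFlat`)

**The intrinsic S19 target, unconditionally**: for every `N`, every prime `ℓ ∤ N` and every `k`, the Galois
module `J₀(N)[ℓ^k]` has a finite flat model over `ℤ_(ℓ)` (`Flat44.HasFlatModel`), from the hub packages of
`T1/Assembly41/Provider.lean` (the same input as `Fermat/Agent/S19.lean`).
-/
import Mathlib
import Fermat.Agent.T1.FlatTarget47
import Fermat.Agent.T1.Assembly41.Provider

set_option autoImplicit false

noncomputable section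

namespace Fermat.Agent.MAZ.T1AX41

open Fermat.Agent.Flat44 ModularCurve

/-- **The intrinsic S19 target** (finite-flat-model form), unconditionally. -/
theorem s19FlatTarget : S19FlatTarget :=
  Fermat.Agent.T1.FlatTarget47.s19FlatTarget_of_packages
    (fun N _ ℓ' _ h => Fermat.Agent.T1.Assembly41.hub_packages N ℓ' h)

/-- **`LeafFlat`**: `J₀(p)[r^k]` has a finite flat model over `ℤ_(r)` for `r ∤ p`. -/
theorem hasFlatModel_torsion (p : ℕ) [NeZero p] (r : ℕ) [Fact r.Prime] (hrp : ¬ r ∣ p) (k : ℕ) :
    HasFlatModel r ↥(Submodule.torsionBy ℤ (JZero p) ((r : ℤ) ^ k))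
      (torsionAct p ((r : ℤ) ^ k)) :=
  s19FlatTarget p r hrp k

/-- The function-order form. -/
theorem s19FunOrderTarget : S19FunOrderTarget := s19FlatTarget_iff.1 s19FlatTarget

end Fermat.Agent.MAZ.T1AX41
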