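/-
Fermat/Agent/MAZ/T1AX41/K2.lean  (helper41; programme MAZ = S15, export T1A-X, leaf (K2))

**Kummer classes of rational points of `J₀(p)` are flat at every prime `r ∤ p`** (the last mile of T1A-X).

* `kummerX3Sub_auxLevel` : brick X3 in the sub shape (`KumFlat97.KummerX3Sub`) at the auxiliary level
  `M = auxLevel ℓ N`, for ANY point `w` of `J₀(M)` such that `n • w` is fixed by `G_ℓ`: the subgroup
  `S = J₀(M)[n] ⊔ ℤ w` is finitely generated, `G_ℓ`-stable, has finitely many representatives modulo fixed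
  elements (helper59's `KumFlat59.SupPoint`), hence carries arithmetic local analytic group data
  (`KumFlat59.exists_modCoordData_sub`, the hub assembly of S19 for a stable subgroup);
* `hK2` : for a rational point `x` of `J₀(p)`, `r ∤ p`, and ANY `z` with `n • z = x`, the Kummer cocycle of `z`
  is flat at `r` — literally the hypothesis `hK2` of `FlatCond42.kumSel_mem_selF`
  (through helper97's `KumFlat97.hK2_JZero`).  The divisibility of `J₀(M)` is a hypothesis
  (`MW.Div73.jzero_divisible`, kept out of the import closure of this file).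
-/
import Mathlib
import Fermat.Agent.MAZ.KumFlat59.Concrete
import Fermat.Agent.MAZ.KumFlat59.SupPoint
import Fermat.Agent.MAZ.KumFlat97.K2JZero

set_option autoImplicit false
set_option linter.unusedSectionVars false
set_option linter.style.haveILetI false

noncomputable section

namespace Fermat.Agent.MAZ.T1AX41

open Fermat.Agent.Flat44 Fermat.Agent.MAZ.FlatCond42 Fermat.Agent.MAZ.SelCoh42 Fermat.Agent.MAZ.Kum5
open Fermat.Agent.TW.B5.Iface Fermat.Agent.T1.Assembly41
open Fermat.Agent.MAZ.KumFlat59 Fermat.Agent.MAZ.KumFlat97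
open ModularCurve Fermat.Agent.RED.Interface4 Fermat.Agent.ES.HECKE.LevelPullback12
  Fermat.Agent.ES.RED.PullbackInj12

/-- **X3 (sub shape) at the auxiliary level**: for every point `w` of `J₀(auxLevel ℓ N)` (`ℓ ∤ N`) such that
`n • w` is fixed by `G_ℓ`, the subgroup `J₀(M)[n] ⊔ ℤ w` carries arithmetic local analytic group data. -/
theorem kummerX3Sub_auxLevel (N : ℕ) [NeZero N] (ℓ : ℕ) [Fact ℓ.Prime] (h : ¬ ℓ ∣ N)
    [NeZero (auxLevel ℓ N)] (n : ℕ) [NeZero n] (w : JZero (auxLevel ℓ N))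
    (hw : ∀ σ : Gp ℓ, localGaloisToGlobal ℓ σ • (n • w) = n • w) :
    KummerX3Sub ℓ n (JZero (auxLevel ℓ N)) w := by
  haveI : Finite ↥(tors (Γ := GQ) (JZero (auxLevel ℓ N)) n).W := finite_tors_JZero (auxLevel ℓ N) n
  have hV : ∀ (σ : Gp ℓ) (y : JZero (auxLevel ℓ N)),
      y ∈ (tors (Γ := GQ) (JZero (auxLevel ℓ N)) n).W →
        localGaloisToGlobal ℓ σ • y ∈ (tors (Γ := GQ) (JZero (auxLevel ℓ N)) n).W :=
    fun σ y hy => (tors (Γ := GQ) (JZero (auxLevel ℓ N)) n).stable (localGaloisToGlobal ℓ σ) y hy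
  have hy0 : ∀ σ : Gp ℓ,
      localGaloisToGlobal ℓ σ • w - w ∈ (tors (Γ := GQ) (JZero (auxLevel ℓ N)) n).W := by
    intro σ
    show n • (localGaloisToGlobal ℓ σ • w - w) = 0
    have h1 : localGaloisToGlobal ℓ σ • (n • w) = n • (localGaloisToGlobal ℓ σ • w) :=
      map_nsmul (DistribSMul.toAddMonoidHom (JZero (auxLevel ℓ N)) (localGaloisToGlobal ℓ σ)) n w
    rw [nsmul_sub, ← h1, hw σ, sub_self]
  have hS := stable_supPoint ℓ (tors (Γ := GQ) (JZero (auxLevel ℓ N)) n).W w hV hy0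
  have hrep := hasFiniteReps_supPoint ℓ (tors (Γ := GQ) (JZero (auxLevel ℓ N)) n).W w n
    (Nat.pos_of_ne_zero (NeZero.ne n)) hw hS
  obtain ⟨A, iA, hD⟩ := exists_modCoordData_sub N ℓ h
    (supPoint (auxLevel ℓ N) (tors (Γ := GQ) (JZero (auxLevel ℓ N)) n).W w)
    (fg_supPoint _ w) hS hrep
  exact ⟨supPoint (auxLevel ℓ N) (tors (Γ := GQ) (JZero (auxLevel ℓ N)) n).W w, hS,
    le_supPoint _ w, mem_supPoint_self _ w, A, iA, hD⟩

/-- **(K2) for `J₀(p)` at `r ∤ p`**: for a rational point `x` of `J₀(p)` and ANY division point `z`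
(`n • z = x`), the Kummer cocycle of `z` is flat at `r`.  This is the hypothesis `hK2` of
`FlatCond42.kumSel_mem_selF` (there `n = r ^ k`). -/
theorem hK2 (p : ℕ) [NeZero p] (r : ℕ) [Fact r.Prime] (hrp : ¬ r ∣ p) (n : ℕ) [NeZero n]
    (hdivp : ∀ x : JZero p, ∃ y : JZero p, n • y = x) (hsmp : IsSmooth galLevel (JZero p))
    (hdivM : haveI := Fermat.Agent.RED.LVL.LevelDegree17.neZero_auxLevel r p
      ∀ x : JZero (auxLevel r p), ∃ y : JZero (auxLevel r p), n • y = x)
    (x : Inv (⊤ : Subgroup GQ) (JZero p)) (z : JZero p) (hz : n • z = x.1) :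
    IsFlatCochain r n (kumCocycle galLevel hdivp hsmp z (fun g => by
      rw [hz]; exact mem_Inv_top.1 x.2 g)).1 := by
  haveI := Fermat.Agent.RED.LVL.LevelDegree17.neZero_auxLevel r p
  refine hK2_JZero p r n hdivp hsmp hdivM x z hz ?_
  refine kummerX3Sub_auxLevel p r hrp n _ (fun σ => ?_)
  rw [← map_nsmul, hz, ← levelPullback_smul, mem_Inv_top.1 x.2]

/-- `(K2)` with the smoothness of `J₀(p)` discharged (`KumFlat97.isSmooth_JZero`). -/
theorem hK2' (p : ℕ) [NeZero p] (r : ℕ) [Fact r.Prime] (hrp : ¬ r ∣ p) (n : ℕ) [NeZero n]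
    (hdivp : ∀ x : JZero p, ∃ y : JZero p, n • y = x)
    (hdivM : haveI := Fermat.Agent.RED.LVL.LevelDegree17.neZero_auxLevel r p
      ∀ x : JZero (auxLevel r p), ∃ y : JZero (auxLevel r p), n • y = x)
    (x : Inv (⊤ : Subgroup GQ) (JZero p)) (z : JZero p) (hz : n • z = x.1) :
    IsFlatCochain r n (kumCocycle galLevel hdivp (isSmooth_JZero p) z (fun g => by
      rw [hz]; exact mem_Inv_top.1 x.2 g)).1 :=
  hK2 p r hrp n hdivp (isSmooth_JZero p) hdivM x z hz

end Fermat.Agent.MAZ.T1AX41
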